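import Fermat.Agent.Coppersmith.Lattice
import Fermat.Agent.LLL.Swap
import Mathlib.RingTheory.Polynomial.Resultant.Basic
import Mathlib.RingTheory.Polynomial.GaussLemma
import Mathlib.LinearAlgebra.Matrix.AbsoluteValue
import Mathlib.Algebra.Polynomial.Div

/-!
# An irreducible polynomial from one root modulo a large number

A common root modulo `M` makes `M` divide the resultant, which for small coefficients is then zero.
So the short first vector of a reduced basis of the polynomials of degree `≤ m` vanishing at `r`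
modulo `M` is a multiple of any small irreducible polynomial with that root.
-/

set_option autoImplicit false

noncomputable section

namespace FA.LLLFactor

open Finset Polynomial
open scoped Nat

theorem abs_resultant_le {f g : ℤ[X]} {n m : ℕ} {B : ℤ} (hB : 0 ≤ B) (hf : ∀ l, |f.coeff l| ≤ B)
    (hg : ∀ l, |g.coeff l| ≤ B) : |resultant f g n m| ≤ (n + m)! * B ^ (n + m) := by
  have h := Matrix.det_le (A := sylvester f g n m) (abv := AbsoluteValue.abs) (x := B) fun i j => by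
    rw [AbsoluteValue.abs_apply, sylvester, Matrix.of_apply]
    induction j using Fin.addCases with
    | left j =>
      rw [Fin.addCases_left]
      split_ifs
      · exact hg _
      · simpa using hB
    | right j =>
      rw [Fin.addCases_right]
      split_ifs
      · exact hf _
      · simpa using hB
  rw [AbsoluteValue.abs_apply, Fintype.card_fin, nsmul_eq_mul] at h
  exact h

/-- Small polynomials with a common root modulo a large `M` share their irreducible factor. -/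
theorem dvd_of_common_root {f g : ℤ[X]} (hf : Irreducible f) (hn : 0 < f.natDegree) {m : ℕ}
    (hg : g.natDegree ≤ m) {B M r : ℤ} (hB : 0 ≤ B) (hfB : ∀ l, |f.coeff l| ≤ B)
    (hgB : ∀ l, |g.coeff l| ≤ B) (hfr : M ∣ f.eval r) (hgr : M ∣ g.eval r)
    (hM : (f.natDegree + m)! * B ^ (f.natDegree + m) < M) : f ∣ g := by
  obtain ⟨p, q, -, -, hpq⟩ :=
    exists_mul_add_mul_eq_C_resultant (m := f.natDegree) (n := m) f g le_rfl hg (Or.inl hn.ne')
  have hdvd : M ∣ resultant f g f.natDegree m := by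
    have h := congrArg (eval r) hpq
    rw [eval_add, eval_mul, eval_mul, eval_C] at h
    rw [← h]
    exact dvd_add (hfr.mul_right _) (hgr.mul_right _)
  have hres : resultant f g f.natDegree m = 0 := by
    by_contra h0
    have h1 := Int.le_of_dvd (abs_pos.2 h0) ((dvd_abs _ _).2 hdvd)
    exact absurd (h1.trans (abs_resultant_le hB hfB hgB)) (not_le.2 hM)
  obtain ⟨ψ, hψ⟩ : ∃ ψ : ℤ →+* ℚ, ψ = Int.castRingHom ℚ := ⟨_, rfl⟩
  have hinj : Function.Injective ψ := hψ ▸ Int.cast_injective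
  have hprim : f.IsPrimitive := hf.isPrimitive hn.ne'
  have hfQ : Irreducible (f.map ψ) :=
    hψ ▸ (IsPrimitive.Int.irreducible_iff_irreducible_map_cast hprim).1 hf
  have hdf : (f.map ψ).natDegree = f.natDegree := natDegree_map_eq_of_injective hinj f
  have hdg : (g.map ψ).natDegree ≤ m := natDegree_map_le.trans hg
  obtain ⟨k, hk⟩ := Nat.exists_eq_add_of_le hdg
  have h2 : resultant (f.map ψ) (g.map ψ) f.natDegree m = 0 := by
    rw [resultant_map_map, hres, map_zero]
  rw [hk, resultant_add_right_deg _ _ _ _ _ le_rfl, mul_eq_zero] at h2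
  have h3 : resultant (f.map ψ) (g.map ψ) = 0 := by
    rw [hdf]
    refine h2.resolve_left (pow_ne_zero _ ?_)
    rw [coeff_map, map_ne_zero_iff ψ hinj]
    exact leadingCoeff_ne_zero.2 hf.ne_zero
  have h4 := (resultant_eq_zero_iff.1 h3).2
  have h5 : f.map ψ ∣ g.map ψ := by
    by_contra h
    exact h4 (hfQ.coprime_iff_not_dvd.2 h)
  exact (IsPrimitive.Int.dvd_iff_map_cast_dvd_map_cast f g hprim).2 (hψ ▸ h5)

/-- The basis `M, X - r, X (X - r), …` of the polynomials vanishing at `r` modulo `M`. -/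
def rootBasis (m : ℕ) (M r : ℤ) (k : Fin (m + 1)) : ℤ[X] :=
  if (k : ℕ) = 0 then C M else X ^ ((k : ℕ) - 1) * (X - C r)

/-- Its coefficient vectors. -/
def rootVec (m : ℕ) (M r : ℤ) (k : Fin (m + 1)) : EuclideanSpace ℝ (Fin (m + 1)) :=
  FA.Coppersmith.coeffVec 1 (m + 1) (rootBasis m M r k)

theorem rootBasis_spec (m : ℕ) (M r : ℤ) (k : Fin (m + 1)) :
    (rootBasis m M r k).natDegree ≤ k ∧
      (rootBasis m M r k).coeff k = (if (k : ℕ) = 0 then M else 1) ∧
        M ∣ (rootBasis m M r k).eval r := by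
  unfold rootBasis
  split_ifs with h
  · simp [h]
  · have hmon : (X ^ ((k : ℕ) - 1) * (X - C r) : ℤ[X]).Monic :=
      (monic_X_pow _).mul (monic_X_sub_C r)
    have hdeg : (X ^ ((k : ℕ) - 1) * (X - C r) : ℤ[X]).natDegree = k := by
      rw [(monic_X_pow _).natDegree_mul (monic_X_sub_C r), natDegree_X_pow, natDegree_X_sub_C]
      omega
    refine ⟨hdeg.le, ?_, by simp⟩
    conv_lhs => arg 2; rw [← hdeg]
    exact hmon.coeff_natDegree

theorem rootVec_linearIndependent (m : ℕ) {M : ℤ} (hM : M ≠ 0) (r : ℤ) :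
    LinearIndependent ℝ (rootVec m M r) := by
  obtain ⟨A, hA⟩ : ∃ A : Matrix (Fin (m + 1)) (Fin (m + 1)) ℝ,
      A = Matrix.of fun (k l : Fin (m + 1)) => ((rootBasis m M r k).coeff l : ℝ) := ⟨_, rfl⟩
  have hgram : Matrix.gram ℝ (rootVec m M r) = A * A.transpose := by
    ext k l
    rw [Matrix.gram_apply, PiLp.inner_apply, Matrix.mul_apply]
    simp [rootVec, FA.Coppersmith.coeffVec, hA, mul_comm]
  have hdet : A.det ≠ 0 := by
    rw [Matrix.det_of_isLowerTriangular _ fun k l hkl => ?_]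
    · refine Finset.prod_ne_zero_iff.2 fun k _ => ?_
      rw [hA, Matrix.of_apply, (rootBasis_spec m M r k).2.1, Int.cast_ne_zero]
      split_ifs
      · exact hM
      · exact one_ne_zero
    · have hkl' : (k : ℕ) < l := hkl
      simp [hA, coeff_eq_zero_of_natDegree_lt ((rootBasis_spec m M r k).1.trans_lt hkl')]
  refine Matrix.linearIndependent_of_det_gram_ne_zero ?_
  rw [hgram, Matrix.det_mul, Matrix.det_transpose]
  exact mul_ne_zero hdet hdet

theorem mem_rootLattice {m : ℕ} (hm : 0 < m) {M r : ℤ} {G : ℤ[X]} (hG : G.natDegree ≤ m)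
    (hr : M ∣ G.eval r) :
    FA.Coppersmith.coeffVec 1 (m + 1) G ∈ FA.LLL.lattice (rootVec m M r) := by
  obtain ⟨a, ha⟩ := hr
  obtain ⟨q, hq⟩ : ∃ q, q = G /ₘ (X - C r) := ⟨_, rfl⟩
  have hdeg : q.natDegree < m := by
    rw [hq, natDegree_divByMonic G (monic_X_sub_C r), natDegree_X_sub_C]
    omega
  have hexp : G = C a * rootBasis m M r 0 +
      ∑ i : Fin m, C (q.coeff i) * rootBasis m M r i.succ := by
    conv_lhs => rw [← modByMonic_add_div G (X - C r), modByMonic_X_sub_C_eq_C_eval, ← hq,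
      as_sum_range' q m hdeg, mul_sum, ha, ← Fin.sum_univ_eq_sum_range]
    refine congrArg₂ (· + ·) ?_ (sum_congr rfl fun i _ => ?_)
    · simp [rootBasis, mul_comm M a]
    · rw [← C_mul_X_pow_eq_monomial]
      simp [rootBasis]
      ring
  rw [FA.LLL.mem_lattice_iff]
  refine ⟨Fin.cons a fun i => q.coeff i, ?_⟩
  rw [show (∑ i, ((Fin.cons a fun i : Fin m => q.coeff i : Fin (m + 1) → ℤ) i : ℝ) •
      rootVec m M r i) = FA.Coppersmith.coeffVec 1 (m + 1) (∑ i,
        C ((Fin.cons a fun i : Fin m => q.coeff i : Fin (m + 1) → ℤ) i) * rootBasis m M r i) from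
    FA.Coppersmith.coeffVec_sum univ _ _, Fin.sum_univ_succ]
  simp only [Fin.cons_zero, Fin.cons_succ]
  rw [← hexp]

theorem first_vector_dvd {f : ℤ[X]} (hf : Irreducible f) {m : ℕ} (hn : 0 < f.natDegree)
    (hm : f.natDegree ≤ m) {H M r : ℤ} (hH : ∀ l, |f.coeff l| ≤ H) (hfr : M ∣ f.eval r)
    (hM : (f.natDegree + m)! * (2 ^ m * (f.natDegree + 1) * H ^ 2) ^ (f.natDegree + m) < M)
    {b : Fin (m + 1) → EuclideanSpace ℝ (Fin (m + 1))} (hb : LinearIndependent ℝ b)
    (hlat : Submodule.span ℤ (Set.range b) = Submodule.span ℤ (Set.range (rootVec m M r)))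
    (hred : FA.LLL.IsReduced (3 / 4) b) :
    ∃ G : ℤ[X], G ≠ 0 ∧ G.natDegree ≤ m ∧ f ∣ G ∧
      b 0 = FA.Coppersmith.coeffVec 1 (m + 1) G := by
  obtain ⟨B, hBdef⟩ : ∃ B : ℤ, B = 2 ^ m * (f.natDegree + 1) * H ^ 2 := ⟨_, rfl⟩
  have hH1 : 1 ≤ H :=
    (Int.one_le_abs (leadingCoeff_ne_zero.2 hf.ne_zero)).trans (hH f.natDegree)
  have hfB : ∀ l, |f.coeff l| ≤ B := fun l => by
    refine (hH l).trans ((Int.le_self_sq H).trans (hBdef ▸ le_mul_of_one_le_left (sq_nonneg H) ?_))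
    exact one_le_mul_of_one_le_of_one_le (one_le_pow₀ one_le_two) (by omega)
  obtain ⟨c, hc⟩ := FA.LLL.mem_lattice_iff.1
    (show b 0 ∈ FA.LLL.lattice (rootVec m M r) from hlat.le (Submodule.subset_span ⟨0, rfl⟩))
  obtain ⟨G, hG⟩ : ∃ G : ℤ[X], G = ∑ k, C (c k) * rootBasis m M r k := ⟨_, rfl⟩
  have hvec : b 0 = FA.Coppersmith.coeffVec 1 (m + 1) G := by
    rw [← hc, hG]
    exact FA.Coppersmith.coeffVec_sum univ c _
  have hGdeg : G.natDegree ≤ m := by
    rw [hG]
    refine natDegree_sum_le_of_forall_le _ _ fun k _ => ?_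
    exact (natDegree_C_mul_le _ _).trans
      ((rootBasis_spec m M r k).1.trans (Nat.le_of_lt_succ k.isLt))
  have hGr : M ∣ G.eval r := by
    rw [hG, eval_finsetSum]
    exact dvd_sum fun k _ => by
      rw [eval_mul]
      exact Dvd.dvd.mul_left (rootBasis_spec m M r k).2.2 _
  have hG0 : G ≠ 0 := fun h => hb.ne_zero 0 (by
    rw [hvec, h]
    ext l
    simp [FA.Coppersmith.coeffVec])
  have hnormsq : ∀ P : ℤ[X], ‖FA.Coppersmith.coeffVec 1 (m + 1) P‖ ^ 2 =
      ((∑ l ∈ range (m + 1), P.coeff l ^ 2 : ℤ) : ℝ) := fun P => by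
    rw [EuclideanSpace.norm_sq_eq, Int.cast_sum, ← Fin.sum_univ_eq_sum_range]
    simp [FA.Coppersmith.coeffVec]
  have hfvec : FA.Coppersmith.coeffVec 1 (m + 1) f ≠ 0 := fun h => by
    have := congrArg (fun v : EuclideanSpace ℝ (Fin (m + 1)) =>
      v ⟨f.natDegree, Nat.lt_succ_of_le hm⟩) h
    simp [FA.Coppersmith.coeffVec] at this
    exact hf.ne_zero this
  obtain ⟨a, hshort⟩ := FA.LLL.le_successive (FA.LLL.nonDeg_of_linearIndependent hb) hred.1 hred.2
    (LinearIndependent.of_subsingleton (R := ℝ)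
      (v := fun _ : Fin 1 => FA.Coppersmith.coeffVec 1 (m + 1) f) 0 hfvec)
    (fun _ => by
      rw [show FA.LLL.lattice b = FA.LLL.lattice (rootVec m M r) from hlat]
      exact mem_rootLattice (hn.trans_le hm) hm hfr)
    (i := (0 : Fin (m + 1))) (by simp)
  rw [hvec, hnormsq, hnormsq, Nat.add_sub_cancel] at hshort
  have hint : (∑ l ∈ range (m + 1), G.coeff l ^ 2) ≤
      2 ^ m * ∑ l ∈ range (m + 1), f.coeff l ^ 2 := by exact_mod_cast hshort
  have hfsum : ∑ l ∈ range (m + 1), f.coeff l ^ 2 ≤ ((f.natDegree : ℤ) + 1) * H ^ 2 := by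
    rw [← sum_subset (range_subset_range.2 (Nat.succ_le_succ hm)) fun l _ hl => by
      rw [coeff_eq_zero_of_natDegree_lt (by simp at hl; omega)]; simp]
    refine (sum_le_card_nsmul _ _ (H ^ 2) fun l _ => ?_).trans (le_of_eq ?_)
    · rw [← sq_abs]
      exact pow_le_pow_left₀ (abs_nonneg _) (hH l) 2
    · rw [card_range, nsmul_eq_mul]
      push_cast
      ring
  have hGB : ∀ l, |G.coeff l| ≤ B := fun l => by
    rcases le_or_gt (m + 1) l with hl | hl
    · rw [coeff_eq_zero_of_natDegree_lt (by omega), abs_zero]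
      exact (abs_nonneg _).trans (hfB 0)
    · refine (Int.le_self_sq _).trans ?_
      rw [sq_abs, hBdef, mul_assoc]
      exact (single_le_sum (f := fun l => G.coeff l ^ 2) (fun i _ => sq_nonneg _)
        (mem_range.2 hl)).trans
          (hint.trans (mul_le_mul_of_nonneg_left hfsum (pow_nonneg zero_le_two m)))
  exact ⟨G, hG0, hGdeg,
    dvd_of_common_root hf hn hGdeg ((abs_nonneg _).trans (hfB 0)) hfB hGB hfr hGr (hBdef ▸ hM),
    hvec⟩

theorem eq_const_mul {f G : ℤ[X]} (hG : G ≠ 0) (hdeg : G.natDegree ≤ f.natDegree) (h : f ∣ G) :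
    ∃ c : ℤ, c ≠ 0 ∧ G = C c * f := by
  obtain ⟨q, rfl⟩ := h
  obtain ⟨hf0, hq0⟩ := mul_ne_zero_iff.1 hG
  rw [natDegree_mul hf0 hq0] at hdeg
  have hq := eq_C_of_natDegree_eq_zero (by omega : q.natDegree = 0)
  refine ⟨q.coeff 0, fun h0 => hq0 (by rw [hq, h0, C_0]), ?_⟩
  conv_lhs => rw [hq]
  ring

/-- A polynomial of positive degree has a root modulo some arbitrarily large prime. -/
theorem exists_large_prime_root {f : ℤ[X]} (hn : 0 < f.natDegree) (B : ℕ) :
    ∃ (p : ℕ) (r : ℤ), p.Prime ∧ B < p ∧ (p : ℤ) ∣ f.eval r := by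
  obtain ⟨a, ha⟩ : ∃ a, a = f.eval 0 := ⟨_, rfl⟩
  rcases eq_or_ne a 0 with h0 | h0
  · obtain ⟨p, hBp, hp⟩ := Nat.exists_infinite_primes (B + 1)
    exact ⟨p, 0, hp, hBp, by rw [← ha, h0]; exact dvd_zero _⟩
  obtain ⟨L, hL⟩ : ∃ L : ℤ, L = (B ! : ℤ) * a := ⟨_, rfl⟩
  have hL0 : L ≠ 0 := hL ▸ mul_ne_zero (Int.natCast_ne_zero.2 (Nat.factorial_ne_zero B)) h0
  have hne : ∀ c : ℤ, f - C c ≠ 0 := fun c h => by
    rw [sub_eq_zero.1 h, natDegree_C] at hn
    exact lt_irrefl _ hn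
  obtain ⟨t, ht⟩ := Infinite.exists_notMem_finset
    (((f - C a) * (f - C (-a))).roots.toFinset.preimage (L * ·) (mul_right_injective₀ hL0).injOn)
  rw [mem_preimage, Multiset.mem_toFinset, mem_roots (mul_ne_zero (hne a) (hne (-a))), IsRoot.def,
    eval_mul, eval_sub, eval_sub, eval_C, eval_C, mul_eq_zero, not_or, sub_eq_zero,
    sub_eq_zero] at ht
  obtain ⟨k, hk⟩ : L * t ∣ f.eval (L * t) - a := by
    have h := sub_dvd_eval_sub (L * t) 0 f
    rwa [sub_zero, ← ha] at h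
  obtain ⟨w, hw⟩ : ∃ w : ℤ, w = 1 + (B ! : ℤ) * (t * k) := ⟨_, rfl⟩
  have hfw : f.eval (L * t) = a * w := by
    rw [hw, ← sub_add_cancel (f.eval (L * t)) a, hk, hL]
    ring
  have hw1 : w.natAbs ≠ 1 := fun h => by
    rcases Int.natAbs_eq_iff.1 h with h' | h'
    · exact ht.1 (by rw [hfw, h']; simp)
    · exact ht.2 (by rw [hfw, h']; simp)
  obtain ⟨p, hp, hpw⟩ := Nat.exists_prime_and_dvd hw1
  refine ⟨p, L * t, hp, ?_, by rw [hfw]; exact Dvd.dvd.mul_left (Int.natCast_dvd.2 hpw) _⟩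
  by_contra hle
  have h1 : (p : ℤ) ∣ (B ! : ℤ) :=
    Int.natCast_dvd_natCast.2 (Nat.dvd_factorial hp.pos (not_lt.1 hle))
  have h2 : (p : ℤ) ∣ 1 + (B ! : ℤ) * (t * k) := hw ▸ Int.natCast_dvd.2 hpw
  have h3 : (p : ℤ) ∣ 1 := (dvd_add_left (h1.mul_right _)).1 h2
  exact hp.not_dvd_one (by exact_mod_cast h3)

end FA.LLLFactor
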